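import Mathlib

/-!
# Periodic decaying functions on the upper half plane and their primitives

`IsDecay N h`: `h` is a holomorphic function of `q = exp (2πiz/N)` vanishing at `q = 0`.
Such a function has a decaying primitive (`IsDecay.exists_prim`), so its products with
polynomials have primitives (`hasPrim_mul_eval`) and integrals `seg` from one point to another
are defined. `exists_eichler`: its Eichler integral is a decaying function plus a polynomial,
and the decaying part vanishes only if `h` does. Proofs are by integration by parts.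
-/

noncomputable section

open Complex UpperHalfPlane Function Filter Metric
open scoped Topology Real

namespace FLTAgent.ModSym

/-- `h` is `φ ∘ q_N` on the upper half plane with `φ` holomorphic on the unit disc, `φ 0 = 0`. -/
def IsDecay (N : ℕ) (h : ℂ → ℂ) : Prop :=
  ∃ φ : ℂ → ℂ, DifferentiableOn ℂ φ (ball 0 1) ∧ φ 0 = 0 ∧
    ∀ z : ℂ, 0 < z.im → h z = φ (Periodic.qParam N z)

/-- `φ` has a primitive on the upper half plane. -/
def HasPrim (φ : ℂ → ℂ) : Prop :=
  ∃ F : ℂ → ℂ, ∀ z : ℂ, 0 < z.im → HasDerivAt F (φ z) z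

open Classical in
/-- a chosen primitive on the upper half plane -/
def prim (φ : ℂ → ℂ) : ℂ → ℂ := if h : HasPrim φ then h.choose else 0

/-- the integral from `a` to `b` of `φ` (meaningful when `φ` has a primitive). -/
def seg (φ : ℂ → ℂ) (a b : ℍ) : ℂ := prim φ b - prim φ a

theorem seg_add_seg (φ : ℂ → ℂ) (a b c : ℍ) : seg φ a b + seg φ b c = seg φ a c := by
  simp only [seg]; ring

theorem seg_self (φ : ℂ → ℂ) (a : ℍ) : seg φ a a = 0 := by simp [seg]

theorem seg_symm (φ : ℂ → ℂ) (a b : ℍ) : seg φ b a = - seg φ a b := by simp [seg]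

theorem seg_eq {φ F : ℂ → ℂ} (hF : ∀ z : ℂ, 0 < z.im → HasDerivAt F (φ z) z) (a b : ℍ) :
    seg φ a b = F b - F a := by
  have hex : HasPrim φ := ⟨F, hF⟩
  have hG : ∀ z : ℂ, 0 < z.im → HasDerivAt (prim φ) (φ z) z := by
    rw [prim, dif_pos hex]; exact hex.choose_spec
  have key : ∃ c, Set.EqOn (prim φ) (fun z => F z + c) {z : ℂ | 0 < z.im} :=
    IsOpen.exists_eq_add_of_deriv_eq (isOpen_lt continuous_const Complex.continuous_im)
      (convex_halfSpace_im_gt 0).isPreconnected
      (fun z hz => (hG z hz).differentiableAt.differentiableWithinAt)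
      (fun z hz => (hF z hz).differentiableAt.differentiableWithinAt)
      (fun z hz => by rw [(hG z hz).deriv, (hF z hz).deriv])
  obtain ⟨c, hc⟩ := key
  simp only [seg]
  rw [hc b.im_pos, hc a.im_pos]
  ring

theorem HasPrim.congr {φ ψ : ℂ → ℂ} (h : HasPrim φ) (e : ∀ z : ℂ, 0 < z.im → φ z = ψ z) :
    HasPrim ψ := by
  obtain ⟨F, hF⟩ := h
  exact ⟨F, fun z hz => e z hz ▸ hF z hz⟩

theorem seg_congr {φ ψ : ℂ → ℂ} (h : HasPrim φ) (e : ∀ z : ℂ, 0 < z.im → φ z = ψ z) (a b : ℍ) :
    seg φ a b = seg ψ a b := by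
  obtain ⟨F, hF⟩ := h
  rw [seg_eq hF, seg_eq (F := F) (fun z hz => e z hz ▸ hF z hz)]

theorem HasPrim.zero : HasPrim 0 := ⟨0, fun z _ => hasDerivAt_const z 0⟩

theorem HasPrim.add {φ ψ : ℂ → ℂ} (h : HasPrim φ) (h' : HasPrim ψ) : HasPrim (φ + ψ) := by
  obtain ⟨F, hF⟩ := h
  obtain ⟨G, hG⟩ := h'
  exact ⟨F + G, fun z hz => (hF z hz).add (hG z hz)⟩

theorem HasPrim.smul {φ : ℂ → ℂ} (h : HasPrim φ) (c : ℂ) : HasPrim (c • φ) := by
  obtain ⟨F, hF⟩ := h
  exact ⟨c • F, fun z hz => (hF z hz).const_smul c⟩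

theorem HasPrim.sum {ι : Type*} (s : Finset ι) {φ : ι → ℂ → ℂ} (h : ∀ i ∈ s, HasPrim (φ i)) :
    HasPrim (∑ i ∈ s, φ i) :=
  Finset.sum_induction _ _ (fun _ _ => HasPrim.add) HasPrim.zero h

theorem seg_zero (a b : ℍ) : seg 0 a b = 0 := by
  rw [seg_eq (φ := 0) (F := 0) (fun z _ => hasDerivAt_const z 0)]; simp

theorem seg_add {φ ψ : ℂ → ℂ} (h : HasPrim φ) (h' : HasPrim ψ) (a b : ℍ) :
    seg (φ + ψ) a b = seg φ a b + seg ψ a b := by
  obtain ⟨F, hF⟩ := h
  obtain ⟨G, hG⟩ := h'
  rw [seg_eq hF, seg_eq hG, seg_eq (φ := φ + ψ) (F := F + G) (fun z hz => (hF z hz).add (hG z hz))]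
  simp only [Pi.add_apply]; ring

theorem seg_smul {φ : ℂ → ℂ} (h : HasPrim φ) (c : ℂ) (a b : ℍ) :
    seg (c • φ) a b = c * seg φ a b := by
  obtain ⟨F, hF⟩ := h
  rw [seg_eq hF, seg_eq (φ := c • φ) (F := c • F) (fun z hz => (hF z hz).const_smul c)]
  simp only [Pi.smul_apply, smul_eq_mul]; ring

theorem seg_sum {ι : Type*} (s : Finset ι) {φ : ι → ℂ → ℂ} (h : ∀ i ∈ s, HasPrim (φ i))
    (a b : ℍ) : seg (∑ i ∈ s, φ i) a b = ∑ i ∈ s, seg (φ i) a b := by
  classical
  induction s using Finset.induction_on with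
  | empty => simp [seg_zero]
  | insert i t hi ih =>
    rw [Finset.sum_insert hi, Finset.sum_insert hi,
      seg_add (h i (Finset.mem_insert_self i t))
        (HasPrim.sum t fun j hj => h j (Finset.mem_insert_of_mem hj)),
      ih fun j hj => h j (Finset.mem_insert_of_mem hj)]

/-! ### Decaying functions -/

theorem natCast_pos' {N : ℕ} [NeZero N] : (0 : ℝ) < (N : ℝ) :=
  Nat.cast_pos.mpr (Nat.pos_of_ne_zero (NeZero.ne N))

theorem qParam_mem_ball {N : ℕ} [NeZero N] {z : ℂ} (hz : 0 < z.im) :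
    Periodic.qParam N z ∈ ball (0 : ℂ) 1 := by
  simpa using Periodic.norm_qParam_lt_one natCast_pos' hz

theorem hasDerivAt_qParam' (N : ℕ) (z : ℂ) :
    HasDerivAt (Periodic.qParam N) (Periodic.qParam N z * (2 * π * Complex.I / N)) z := by
  have := (((hasDerivAt_id z).const_mul (2 * π * Complex.I)).div_const ((N : ℝ) : ℂ)).cexp
  simpa [Periodic.qParam, Function.comp_def] using! this

theorem IsDecay.periodic {N : ℕ} [NeZero N] {h : ℂ → ℂ} (hh : IsDecay N h) {z : ℂ}
    (hz : 0 < z.im) : h (z + N) = h z := by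
  obtain ⟨φ, -, -, hφ⟩ := hh
  rw [hφ z hz, hφ (z + N) (by simpa using hz)]
  congr 1
  simp only [Periodic.qParam]
  rw [exp_eq_exp_iff_exists_int]
  refine ⟨1, ?_⟩
  have : (N : ℂ) ≠ 0 := Nat.cast_ne_zero.mpr (NeZero.ne N)
  push_cast
  field_simp

theorem IsDecay.differentiableAt {N : ℕ} [NeZero N] {h : ℂ → ℂ} (hh : IsDecay N h) {z : ℂ}
    (hz : 0 < z.im) : DifferentiableAt ℂ h z := by
  obtain ⟨φ, hd, -, hφ⟩ := hh
  have h1 : DifferentiableAt ℂ (φ ∘ Periodic.qParam (N : ℝ)) z :=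
    (hd.differentiableAt (isOpen_ball.mem_nhds (qParam_mem_ball hz))).comp z
      (hasDerivAt_qParam' N z).differentiableAt
  refine h1.congr_of_eventuallyEq ?_
  filter_upwards [(isOpen_lt continuous_const Complex.continuous_im).mem_nhds hz] with u hu
  exact hφ u hu

/-- A decaying function has a decaying primitive. -/
theorem IsDecay.exists_prim {N : ℕ} [NeZero N] {h : ℂ → ℂ} (hh : IsDecay N h) :
    ∃ K, IsDecay N K ∧ ∀ z : ℂ, 0 < z.im → HasDerivAt K (h z) z := by
  obtain ⟨φ, hd, h0, hφ⟩ := hh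
  have hψ : DifferentiableOn ℂ (dslope φ 0) (ball 0 1) :=
    (Complex.differentiableOn_dslope (ball_mem_nhds 0 zero_lt_one)).mpr hd
  obtain ⟨Ψ, hΨ0, hΨ⟩ := hψ.isExactOn_ball.with_val_at 0 0
  set c : ℂ := (N : ℂ) / (2 * π * Complex.I) with hc
  refine ⟨fun z => c * Ψ (Periodic.qParam N z), ⟨fun q => c * Ψ q, fun q hq => ?_, ?_,
    fun z _ => rfl⟩, fun z hz => ?_⟩
  · exact ((hΨ q hq).differentiableAt.const_mul c).differentiableWithinAt
  · simp [hΨ0]
  · have h1 := ((hΨ _ (qParam_mem_ball hz)).comp z (hasDerivAt_qParam' N z)).const_mul c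
    refine h1.congr_deriv ?_
    have hq : Periodic.qParam (N : ℝ) z • dslope φ 0 (Periodic.qParam N z)
        = φ (Periodic.qParam N z) := by
      simpa [h0] using sub_smul_dslope φ 0 (Periodic.qParam (N : ℝ) z)
    rw [smul_eq_mul] at hq
    rw [hφ z hz, hc]
    have : (N : ℂ) ≠ 0 := Nat.cast_ne_zero.mpr (NeZero.ne N)
    field_simp
    linear_combination hq

theorem IsDecay.zero (N : ℕ) : IsDecay N 0 :=
  ⟨0, differentiableOn_const 0, rfl, fun _ _ => rfl⟩

theorem IsDecay.const_mul {N : ℕ} {h : ℂ → ℂ} (hh : IsDecay N h) (c : ℂ) :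
    IsDecay N (fun z => c * h z) := by
  obtain ⟨φ, hd, h0, hφ⟩ := hh
  exact ⟨fun q => c * φ q, hd.const_mul c, by simp [h0], fun z hz => by simp [hφ z hz]⟩

theorem IsDecay.zeroAtImInfty {N : ℕ} [NeZero N] {h : ℂ → ℂ} (hh : IsDecay N h) :
    Tendsto (fun τ : ℍ => h τ) atImInfty (𝓝 0) := by
  obtain ⟨φ, hd, h0, hφ⟩ := hh
  have h1 : Tendsto φ (𝓝 0) (𝓝 0) := by
    have := (hd.differentiableAt (ball_mem_nhds 0 zero_lt_one)).continuousAt.tendsto
    rwa [h0] at this
  have h2 : Tendsto (fun τ : ℍ => Periodic.qParam (N : ℝ) τ) atImInfty (𝓝 0) :=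
    (UpperHalfPlane.qParam_tendsto_atImInfty natCast_pos')
  exact (h1.comp h2).congr fun τ => (hφ τ τ.im_pos).symm

/-! ### Primitives of decaying times polynomial -/

theorem hasPrim_mul_pow {N : ℕ} [NeZero N] (m : ℕ) :
    ∀ {h : ℂ → ℂ}, IsDecay N h → ∀ u : ℂ, HasPrim (fun t => h t * (t - u) ^ m) := by
  induction m with
  | zero =>
    intro h hh u
    obtain ⟨K, -, hK⟩ := hh.exists_prim
    exact ⟨K, fun z hz => by simpa using hK z hz⟩
  | succ m ih =>
    intro h hh u
    obtain ⟨K, hKd, hK⟩ := hh.exists_prim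
    obtain ⟨F, hF⟩ := ih hKd u
    refine ⟨fun t => K t * (t - u) ^ (m + 1) - (m + 1 : ℕ) * F t, fun z hz => ?_⟩
    have h1 := ((hK z hz).mul (((hasDerivAt_id z).sub_const u).pow (m + 1))).sub
      ((hF z hz).const_mul ((m + 1 : ℕ) : ℂ))
    refine h1.congr_deriv ?_
    simp only [id_eq, Pi.pow_apply, add_tsub_cancel_right]
    ring

/-- A decaying function times a polynomial has a primitive. -/
theorem hasPrim_mul_eval {N : ℕ} [NeZero N] {h : ℂ → ℂ} (hh : IsDecay N h) (p : Polynomial ℂ) :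
    HasPrim (fun t => h t * p.eval t) := by
  induction p using Polynomial.induction_on' with
  | add p q hp hq =>
    refine (hp.add hq).congr fun z _ => ?_
    simp [mul_add]
  | monomial n a =>
    refine ((hasPrim_mul_pow n hh 0).smul a).congr fun z _ => ?_
    simp; ring

theorem polynomial_eq_const_of_periodic {N : ℕ} [NeZero N] {p : Polynomial ℂ}
    (hp : ∀ z : ℂ, 0 < z.im → p.eval (z + N) = p.eval z) : p = Polynomial.C (p.eval Complex.I) := by
  have hroot : ∀ n : ℕ, p.eval (Complex.I + (n * N : ℕ)) = p.eval Complex.I := by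
    intro n
    induction n with
    | zero => simp
    | succ n ih =>
      rw [← ih, ← hp (Complex.I + (n * N : ℕ)) (by simp)]
      push_cast; ring_nf
  refine sub_eq_zero.mp (Polynomial.eq_zero_of_infinite_isRoot _ ?_)
  refine Set.infinite_of_injective_forall_mem (f := fun n : ℕ => Complex.I + ((n * N : ℕ) : ℂ)) ?_ ?_
  · intro a b hab
    simpa [NeZero.ne N] using hab
  · intro n
    simpa [Polynomial.IsRoot, sub_eq_zero] using hroot n

/-- The Eichler integral of a decaying function is a decaying function plus a polynomial. -/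
theorem exists_eichler {N : ℕ} [NeZero N] (m : ℕ) :
    ∀ {h : ℂ → ℂ}, IsDecay N h → ∀ a : ℍ,
      ∃ (K : ℂ → ℂ) (p : Polynomial ℂ), IsDecay N K ∧
        (∀ z : ℍ, seg (fun t => h t * (t - z) ^ m) a z = K z + p.eval (z : ℂ)) ∧
        ((∀ z : ℂ, 0 < z.im → K z = 0) → ∀ z : ℂ, 0 < z.im → h z = 0) := by
  induction m with
  | zero =>
    intro h hh a
    obtain ⟨K, hKd, hK⟩ := hh.exists_prim
    refine ⟨K, Polynomial.C (- K a), hKd, fun z => ?_, fun hz0 z hz => ?_⟩
    · rw [seg_eq (F := K) (fun t ht => by simpa using hK t ht)]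
      simp [sub_eq_add_neg]
    · refine (hK z hz).unique ((hasDerivAt_const z (0 : ℂ)).congr_of_eventuallyEq ?_)
      filter_upwards [(isOpen_lt continuous_const Complex.continuous_im).mem_nhds hz] with u hu
      exact hz0 u hu
  | succ m ih =>
    intro h hh a
    obtain ⟨K, hKd, hK⟩ := hh.exists_prim
    obtain ⟨L, p, hLd, hL, hL0⟩ := ih hKd a
    refine ⟨fun z => -((m : ℂ) + 1) * L z,
      Polynomial.C (-((m : ℂ) + 1)) * p
        - Polynomial.C (K a) * (Polynomial.C (a : ℂ) - Polynomial.X) ^ (m + 1),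
      hLd.const_mul _, fun z => ?_, fun hz0 z hz => ?_⟩
    · obtain ⟨F, hF⟩ := hasPrim_mul_pow m hKd (z : ℂ)
      have hG : ∀ t : ℂ, 0 < t.im → HasDerivAt
          (fun t => K t * (t - z) ^ (m + 1) - (m + 1 : ℕ) * F t) (h t * (t - z) ^ (m + 1)) t := by
        intro t ht
        have h1 := ((hK t ht).mul (((hasDerivAt_id t).sub_const (z : ℂ)).pow (m + 1))).sub
          ((hF t ht).const_mul ((m + 1 : ℕ) : ℂ))
        refine h1.congr_deriv ?_
        simp only [id_eq, Pi.pow_apply, add_tsub_cancel_right]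
        ring
      have h2 := hL z
      rw [seg_eq hF] at h2
      rw [seg_eq hG]
      simp only [sub_self, Polynomial.eval_sub, Polynomial.eval_mul, Polynomial.eval_C,
        Polynomial.eval_pow, Polynomial.eval_X, zero_pow (Nat.succ_ne_zero m)]
      push_cast
      linear_combination (-((m : ℂ) + 1)) * h2
    · have hK0 := hL0 fun u hu => by
        have := hz0 u hu
        rcases mul_eq_zero.mp this with h' | h'
        · exact absurd h' (neg_ne_zero.mpr (by exact_mod_cast Nat.succ_ne_zero m))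
        · exact h'
      refine (hK z hz).unique ((hasDerivAt_const z (0 : ℂ)).congr_of_eventuallyEq ?_)
      filter_upwards [(isOpen_lt continuous_const Complex.continuous_im).mem_nhds hz] with u hu
      exact hK0 u hu

end FLTAgent.ModSym
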