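import Mathlib

/-!
# Homogeneous polynomial functions in two variables

The integral and complex spans `polyZ w`, `polyC w` of the monomials of degree `w` as functions on
`ℂ × ℂ`, the right action `act` of real `2 × 2` matrices on them (integral matrices preserve
`polyZ`), extension of integral functionals to complex ones (`exists_extend_complex`) and the
kernel polynomial `(x - z y) ^ w` with its transformation rule (`act_kerPoly`).
-/

noncomputable section

open Matrix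
open scoped Matrix

namespace FLTAgent.ModSym

/-- functions of two complex variables -/
abbrev V2 : Type := ℂ × ℂ → ℂ

/-- a real `2 × 2` matrix acting on `ℂ × ℂ` -/
def linPair (M : Matrix (Fin 2) (Fin 2) ℝ) (v : ℂ × ℂ) : ℂ × ℂ :=
  ((M 0 0 : ℂ) * v.1 + (M 0 1 : ℂ) * v.2, (M 1 0 : ℂ) * v.1 + (M 1 1 : ℂ) * v.2)

theorem linPair_mul (A B : Matrix (Fin 2) (Fin 2) ℝ) (v : ℂ × ℂ) :
    linPair (A * B) v = linPair A (linPair B v) := by
  simp only [linPair, Matrix.mul_apply, Fin.sum_univ_two, Prod.mk.injEq]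
  constructor <;> push_cast <;> ring

theorem linPair_one (v : ℂ × ℂ) : linPair 1 v = v := by simp [linPair]

/-- the right action of matrices on functions -/
def act (M : Matrix (Fin 2) (Fin 2) ℝ) : V2 →ₗ[ℂ] V2 where
  toFun Q := fun v => Q (linPair M v)
  map_add' _ _ := rfl
  map_smul' _ _ := rfl

theorem act_apply (M : Matrix (Fin 2) (Fin 2) ℝ) (Q : V2) (v : ℂ × ℂ) :
    act M Q v = Q (linPair M v) := rfl

theorem act_mul (A B : Matrix (Fin 2) (Fin 2) ℝ) (Q : V2) : act (A * B) Q = act B (act A Q) := by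
  funext v; simp [act_apply, linPair_mul]

theorem act_one (Q : V2) : act 1 Q = Q := by funext v; simp [act_apply, linPair_one]

/-- a matrix with integer entries -/
def IntMat (M : Matrix (Fin 2) (Fin 2) ℝ) : Prop := ∀ i j, ∃ n : ℤ, M i j = n

/-- the monomial `x ^ j * y ^ (w - j)` -/
def mon (w : ℕ) (j : Fin (w + 1)) : V2 := fun v => v.1 ^ (j : ℕ) * v.2 ^ (w - j)

/-- integral homogeneous polynomial functions of degree `w` -/
def polyZ (w : ℕ) : Submodule ℤ V2 := Submodule.span ℤ (Set.range (mon w))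

/-- complex homogeneous polynomial functions of degree `w` -/
def polyC (w : ℕ) : Submodule ℂ V2 := Submodule.span ℂ (Set.range (mon w))

theorem mon_mem_polyZ (w : ℕ) (j : Fin (w + 1)) : mon w j ∈ polyZ w :=
  Submodule.subset_span ⟨j, rfl⟩

theorem mon_mem_polyC (w : ℕ) (j : Fin (w + 1)) : mon w j ∈ polyC w :=
  Submodule.subset_span ⟨j, rfl⟩

theorem mem_polyC_of_mem_polyZ {w : ℕ} {Q : V2} (h : Q ∈ polyZ w) : Q ∈ polyC w := by
  have : polyZ w ≤ (polyC w).restrictScalars ℤ :=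
    Submodule.span_le.mpr (by rintro _ ⟨j, rfl⟩; exact mon_mem_polyC w j)
  exact this h

instance polyZ_finite (w : ℕ) : Module.Finite ℤ (polyZ w) :=
  Module.Finite.span_of_finite ℤ (Set.finite_range _)

theorem mon_mul (a b : ℕ) (i : Fin (a + 1)) (j : Fin (b + 1)) :
    mon a i * mon b j = mon (a + b) ⟨i + j, by omega⟩ := by
  funext v
  simp only [mon, Pi.mul_apply]
  rw [show a + b - ((i : ℕ) + j) = (a - i) + (b - j) by omega, pow_add, pow_add]
  ring

theorem mul_mem_polyZ {a b : ℕ} {P Q : V2} (hP : P ∈ polyZ a) (hQ : Q ∈ polyZ b) :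
    P * Q ∈ polyZ (a + b) := by
  have : polyZ a * polyZ b ≤ polyZ (a + b) := by
    rw [polyZ, polyZ, Submodule.span_mul_span, Submodule.span_le]
    rintro _ ⟨_, ⟨i, rfl⟩, _, ⟨j, rfl⟩, rfl⟩
    show mon a i * mon b j ∈ _
    rw [mon_mul]
    exact mon_mem_polyZ _ _
  exact this (Submodule.mul_mem_mul hP hQ)

theorem mul_mem_polyC {a b : ℕ} {P Q : V2} (hP : P ∈ polyC a) (hQ : Q ∈ polyC b) :
    P * Q ∈ polyC (a + b) := by
  have : polyC a * polyC b ≤ polyC (a + b) := by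
    rw [polyC, polyC, Submodule.span_mul_span, Submodule.span_le]
    rintro _ ⟨_, ⟨i, rfl⟩, _, ⟨j, rfl⟩, rfl⟩
    show mon a i * mon b j ∈ _
    rw [mon_mul]
    exact mon_mem_polyC _ _
  exact this (Submodule.mul_mem_mul hP hQ)

theorem mon_zero : mon 0 0 = 1 := by funext v; simp [mon]

theorem pow_mem_polyZ {P : V2} (hP : P ∈ polyZ 1) (n : ℕ) : P ^ n ∈ polyZ n := by
  induction n with
  | zero => rw [pow_zero, ← mon_zero]; exact mon_mem_polyZ 0 0
  | succ n ih => rw [pow_succ]; exact mul_mem_polyZ ih hP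

theorem pow_mem_polyC {P : V2} (hP : P ∈ polyC 1) (n : ℕ) : P ^ n ∈ polyC n := by
  induction n with
  | zero => rw [pow_zero, ← mon_zero]; exact mon_mem_polyC 0 0
  | succ n ih => rw [pow_succ]; exact mul_mem_polyC ih hP

theorem intLinForm_mem (a b : ℤ) : (fun v : ℂ × ℂ => (a : ℂ) * v.1 + (b : ℂ) * v.2) ∈ polyZ 1 := by
  have : (fun v : ℂ × ℂ => (a : ℂ) * v.1 + (b : ℂ) * v.2) = a • mon 1 1 + b • mon 1 0 := by
    funext v; simp [mon]
  rw [this]
  exact add_mem (zsmul_mem (mon_mem_polyZ _ _) a) (zsmul_mem (mon_mem_polyZ _ _) b)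

theorem linForm_mem (a b : ℂ) : (fun v : ℂ × ℂ => a * v.1 + b * v.2) ∈ polyC 1 := by
  have : (fun v : ℂ × ℂ => a * v.1 + b * v.2) = a • mon 1 1 + b • mon 1 0 := by
    funext v; simp [mon]
  rw [this]
  exact add_mem (Submodule.smul_mem _ a (mon_mem_polyC _ _))
    (Submodule.smul_mem _ b (mon_mem_polyC _ _))

theorem act_mon (M : Matrix (Fin 2) (Fin 2) ℝ) (w : ℕ) (j : Fin (w + 1)) :
    act M (mon w j) = (fun v => (M 0 0 : ℂ) * v.1 + (M 0 1 : ℂ) * v.2) ^ (j : ℕ) *
      (fun v => (M 1 0 : ℂ) * v.1 + (M 1 1 : ℂ) * v.2) ^ (w - j) := rfl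

theorem act_mem_polyZ {w : ℕ} {M : Matrix (Fin 2) (Fin 2) ℝ} (hM : IntMat M) {Q : V2}
    (hQ : Q ∈ polyZ w) : act M Q ∈ polyZ w := by
  induction hQ using Submodule.span_induction with
  | mem x hx =>
    obtain ⟨j, rfl⟩ := hx
    obtain ⟨a, ha⟩ := hM 0 0
    obtain ⟨b, hb⟩ := hM 0 1
    obtain ⟨c, hc⟩ := hM 1 0
    obtain ⟨d, hd⟩ := hM 1 1
    rw [act_mon, ha, hb, hc, hd]
    push_cast
    have := mul_mem_polyZ (pow_mem_polyZ (intLinForm_mem a b) j)
      (pow_mem_polyZ (intLinForm_mem c d) (w - j))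
    rwa [Nat.add_sub_cancel' (Nat.le_of_lt_succ j.isLt)] at this
  | zero => simp
  | add x y _ _ hx hy => rw [map_add]; exact add_mem hx hy
  | smul n x _ hx => rw [map_zsmul]; exact zsmul_mem hx n

theorem act_mem_polyC {w : ℕ} (M : Matrix (Fin 2) (Fin 2) ℝ) {Q : V2}
    (hQ : Q ∈ polyC w) : act M Q ∈ polyC w := by
  induction hQ using Submodule.span_induction with
  | mem x hx =>
    obtain ⟨j, rfl⟩ := hx
    rw [act_mon]
    have := mul_mem_polyC (pow_mem_polyC (linForm_mem (M 0 0 : ℂ) (M 0 1 : ℂ)) j)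
      (pow_mem_polyC (linForm_mem (M 1 0 : ℂ) (M 1 1 : ℂ)) (w - j))
    rwa [Nat.add_sub_cancel' (Nat.le_of_lt_succ j.isLt)] at this
  | zero => simp
  | add x y _ _ hx hy => rw [map_add]; exact add_mem hx hy
  | smul n x _ hx => rw [map_smul]; exact Submodule.smul_mem _ n hx

theorem polyC_homogeneous {w : ℕ} {Q : V2} (hQ : Q ∈ polyC w) (t x y : ℂ) :
    Q (t * x, t * y) = t ^ w * Q (x, y) := by
  induction hQ using Submodule.span_induction with
  | mem q hq =>
    obtain ⟨j, rfl⟩ := hq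
    have hw : t ^ w = t ^ (j : ℕ) * t ^ (w - j) := by
      rw [← pow_add, Nat.add_sub_cancel' (Nat.le_of_lt_succ j.isLt)]
    simp only [mon, mul_pow, hw]
    ring
  | zero => simp
  | add x y _ _ hx hy => simp [hx, hy, mul_add]
  | smul n x _ hx => simp [hx]; ring

theorem exists_polynomial {w : ℕ} {Q : V2} (hQ : Q ∈ polyC w) :
    ∃ p : Polynomial ℂ, ∀ z : ℂ, Q (z, 1) = p.eval z := by
  induction hQ using Submodule.span_induction with
  | mem q hq =>
    obtain ⟨j, rfl⟩ := hq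
    exact ⟨Polynomial.X ^ (j : ℕ), fun z => by simp [mon]⟩
  | zero => exact ⟨0, fun z => by simp⟩
  | add x y _ _ hx hy =>
    obtain ⟨p, hp⟩ := hx
    obtain ⟨q, hq⟩ := hy
    exact ⟨p + q, fun z => by simp [hp, hq]⟩
  | smul n x _ hx =>
    obtain ⟨p, hp⟩ := hx
    exact ⟨Polynomial.C n * p, fun z => by simp [hp]⟩

theorem mon_linearIndependent (w : ℕ) : LinearIndependent ℂ (mon w) := by
  rw [Fintype.linearIndependent_iff]
  intro g hg i
  set p : Polynomial ℂ := ∑ j : Fin (w + 1), Polynomial.monomial (j : ℕ) (g j) with hp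
  have hp0 : p = 0 := by
    refine Polynomial.funext fun x => ?_
    have := congrFun hg (x, 1)
    simpa [hp, mon, Polynomial.eval_finsetSum] using this
  have h2 := congrArg (fun q => Polynomial.coeff q (i : ℕ)) hp0
  simpa [hp, Polynomial.finsetSum_coeff, Polynomial.coeff_monomial, Fin.val_inj] using h2

/-- Any `ℤ`-linear functional on integral polynomials extends to a `ℂ`-linear functional. -/
theorem exists_extend_complex {w : ℕ} (v : polyZ w →ₗ[ℤ] ℂ) :
    ∃ vC : V2 →ₗ[ℂ] ℂ, ∀ Q (hQ : Q ∈ polyZ w), vC Q = v ⟨Q, hQ⟩ := by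
  let B := Module.Basis.span (mon_linearIndependent w)
  obtain ⟨vC, hvC⟩ := LinearMap.exists_extend
    (B.constr ℂ fun j => v ⟨mon w j, mon_mem_polyZ w j⟩)
  refine ⟨vC, fun Q hQ => ?_⟩
  have hmon : ∀ j, vC (mon w j) = v ⟨mon w j, mon_mem_polyZ w j⟩ := by
    intro j
    have h1 := LinearMap.congr_fun hvC (B j)
    rw [LinearMap.comp_apply, Module.Basis.constr_basis] at h1
    simpa [B, Module.Basis.span_apply] using h1
  induction hQ using Submodule.span_induction with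
  | mem q hq => obtain ⟨j, rfl⟩ := hq; exact hmon j
  | zero => rw [map_zero]; exact (map_zero v).symm
  | add x y hx' hy' hx hy =>
    rw [map_add, hx, hy, ← map_add v]; rfl
  | smul n x hx' hx =>
    rw [map_zsmul, hx, ← map_zsmul v]; rfl

/-- the kernel polynomial `(x - z y) ^ w` -/
def kerPoly (w : ℕ) (z : ℂ) : V2 := fun v => (v.1 - z * v.2) ^ w

theorem kerPoly_mem (w : ℕ) (z : ℂ) : kerPoly w z ∈ polyC w := by
  have : kerPoly w z = (fun v : ℂ × ℂ => (1 : ℂ) * v.1 + (-z) * v.2) ^ w := by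
    funext v; simp [kerPoly, sub_eq_add_neg]
  rw [this]
  exact pow_mem_polyC (linForm_mem 1 (-z)) w

theorem kerPoly_eq_sum (w : ℕ) (z : ℂ) :
    kerPoly w z = ∑ j : Fin (w + 1),
      ((-z) ^ (w - j) * (w.choose j : ℂ)) • mon w j := by
  funext v
  simp only [kerPoly, Finset.sum_apply, Pi.smul_apply, smul_eq_mul, mon]
  rw [sub_eq_add_neg, add_pow, Finset.sum_range]
  refine Finset.sum_congr rfl fun j _ => ?_
  rw [← neg_mul, mul_pow]
  ring

theorem act_kerPoly (w : ℕ) (M : Matrix (Fin 2) (Fin 2) ℝ) (hM : M.det = 1) (z : ℂ)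
    (hd : (M 1 0 : ℂ) * z + (M 1 1 : ℂ) ≠ 0) :
    ((M 1 0 : ℂ) * z + (M 1 1 : ℂ)) ^ w •
      act M (kerPoly w (((M 0 0 : ℂ) * z + (M 0 1 : ℂ)) / ((M 1 0 : ℂ) * z + (M 1 1 : ℂ))))
      = kerPoly w z := by
  funext v
  simp only [Pi.smul_apply, act_apply, kerPoly, linPair, smul_eq_mul, ← mul_pow]
  congr 1
  have hdet : (M 0 0 : ℂ) * (M 1 1 : ℂ) - (M 0 1 : ℂ) * (M 1 0 : ℂ) = 1 := by
    rw [Matrix.det_fin_two] at hM; exact_mod_cast hM
  rw [mul_sub, ← mul_assoc, mul_div_cancel₀ _ hd]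
  linear_combination (v.1 - z * v.2) * hdet

theorem exists_polynomial_kerPoly (w : ℕ) (u : V2 →ₗ[ℂ] ℂ) :
    ∃ p : Polynomial ℂ, ∀ z : ℂ, u (kerPoly w z) = p.eval z := by
  refine ⟨∑ j : Fin (w + 1),
    Polynomial.C ((w.choose j : ℂ) * u (mon w j)) * (-Polynomial.X) ^ (w - j), fun z => ?_⟩
  simp only [kerPoly_eq_sum, map_sum, map_smul, smul_eq_mul, Polynomial.eval_finsetSum,
    Polynomial.eval_mul, Polynomial.eval_C, Polynomial.eval_pow, Polynomial.eval_neg,
    Polynomial.eval_X]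
  exact Finset.sum_congr rfl fun j _ => by ring

end FLTAgent.ModSym
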