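import Mathlib
import Fermat.Agent.ModSym.Decay
import Fermat.Agent.ModSym.Poly

/-!
# Periods of cusp forms

`per f a b Q` is the integral from `a` to `b` of `f(t) Q(t,1)`. It is bilinear, additive in the
path and transforms under slash operators by the adjugate action on `Q` (`per_slash`). Cusp forms
for `Γ₀(N)` are integrable, being decaying after any slash (`isDecay_slash`,
`cuspForm_integrable`), so their periods are invariant under `Γ₀(N)` (`per_invariant`).
-/

noncomputable section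

open Complex UpperHalfPlane Matrix Matrix.SpecialLinearGroup Filter
open scoped Topology Real MatrixGroups ModularForm Manifold

namespace FLTAgent.ModSym

/-- the integrand `f(t) Q(t, 1)` -/
def integrand (f : ℍ → ℂ) (Q : V2) : ℂ → ℂ := fun t => f (ofComplex t) * Q (t, 1)

/-- the period of `f` against `Q` from `a` to `b` -/
def per (f : ℍ → ℂ) (a b : ℍ) (Q : V2) : ℂ := seg (integrand f Q) a b

theorem per_add_per (f : ℍ → ℂ) (a b c : ℍ) (Q : V2) :
    per f a b Q + per f b c Q = per f a c Q := seg_add_seg _ a b c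

/-- all polynomial integrands of `f` have primitives -/
def Integrable' (w : ℕ) (f : ℍ → ℂ) : Prop := ∀ Q ∈ polyC w, HasPrim (integrand f Q)

theorem integrable_of_isDecay {N : ℕ} [NeZero N] {f : ℍ → ℂ}
    (hf : IsDecay N (fun t => f (ofComplex t))) (w : ℕ) : Integrable' w f := by
  intro Q hQ
  obtain ⟨p, hp⟩ := exists_polynomial hQ
  exact (hasPrim_mul_eval hf p).congr fun z _ => by simp [integrand, hp]

theorem per_add_poly {w : ℕ} {f : ℍ → ℂ} (hf : Integrable' w f) (a b : ℍ) {P Q : V2}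
    (hP : P ∈ polyC w) (hQ : Q ∈ polyC w) : per f a b (P + Q) = per f a b P + per f a b Q := by
  have : integrand f (P + Q) = integrand f P + integrand f Q := by
    funext t; simp [integrand, mul_add]
  rw [per, this, seg_add (hf P hP) (hf Q hQ)]
  rfl

theorem per_smul_poly {w : ℕ} {f : ℍ → ℂ} (hf : Integrable' w f) (a b : ℍ) {Q : V2}
    (hQ : Q ∈ polyC w) (c : ℂ) : per f a b (c • Q) = c * per f a b Q := by
  have : integrand f (c • Q) = c • integrand f Q := by
    funext t; simp [integrand]; ring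
  rw [per, this, seg_smul (hf Q hQ)]
  rfl

theorem per_zero_poly (f : ℍ → ℂ) (a b : ℍ) : per f a b 0 = 0 := by
  have : integrand f 0 = 0 := by funext t; simp [integrand]
  rw [per, this, seg_zero]

theorem per_zsmul_poly {w : ℕ} {f : ℍ → ℂ} (hf : Integrable' w f) (a b : ℍ) {Q : V2}
    (hQ : Q ∈ polyC w) (n : ℤ) : per f a b (n • Q) = n * per f a b Q := by
  rw [← Int.cast_smul_eq_zsmul ℂ, per_smul_poly hf a b hQ]

theorem per_add_form {w : ℕ} {f g : ℍ → ℂ} (hf : Integrable' w f) (hg : Integrable' w g)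
    (a b : ℍ) {Q : V2} (hQ : Q ∈ polyC w) :
    per (f + g) a b Q = per f a b Q + per g a b Q := by
  have : integrand (f + g) Q = integrand f Q + integrand g Q := by
    funext t; simp [integrand, add_mul]
  rw [per, this, seg_add (hf Q hQ) (hg Q hQ)]
  rfl

theorem per_smul_form {w : ℕ} {f : ℍ → ℂ} (hf : Integrable' w f)
    (a b : ℍ) {Q : V2} (hQ : Q ∈ polyC w) (c : ℂ) :
    per (c • f) a b Q = c * per f a b Q := by
  have : integrand (c • f) Q = c • integrand f Q := by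
    funext t; simp [integrand]; ring
  rw [per, this, seg_smul (hf Q hQ)]
  rfl

theorem per_sum_form {w : ℕ} {ι : Type*} (s : Finset ι) {f : ι → ℍ → ℂ}
    (hf : ∀ i ∈ s, Integrable' w (f i)) (a b : ℍ) {Q : V2} (hQ : Q ∈ polyC w) :
    per (∑ i ∈ s, f i) a b Q = ∑ i ∈ s, per (f i) a b Q := by
  have : integrand (∑ i ∈ s, f i) Q = ∑ i ∈ s, integrand (f i) Q := by
    funext t; simp [integrand, Finset.sum_apply, Finset.sum_mul]
  rw [per, this, seg_sum s fun i hi => hf i hi Q hQ]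
  rfl

/-! ### Change of variables -/

theorem hasDerivAt_moebius (A : GL (Fin 2) ℝ) {t : ℂ} (ht : 0 < t.im) :
    HasDerivAt (fun u => num A u / denom A u)
      (((Matrix.det (A : Matrix (Fin 2) (Fin 2) ℝ) : ℝ) : ℂ) / denom A t ^ 2) t := by
  have h1 := ((hasDerivAt_id t).const_mul ((A 0 0 : ℝ) : ℂ)).add_const ((A 0 1 : ℝ) : ℂ)
  have h2 := ((hasDerivAt_id t).const_mul ((A 1 0 : ℝ) : ℂ)).add_const ((A 1 1 : ℝ) : ℂ)
  have hne : denom A t ≠ 0 := denom_ne_zero_of_im A ht.ne'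
  have h3 := h1.div h2 hne
  refine h3.congr_deriv ?_
  rw [Matrix.det_fin_two]
  simp only [denom, id_eq]
  push_cast
  ring

theorem pullback {w : ℕ} {k : ℤ} (hk : k = (w : ℤ) + 2) (A : GL (Fin 2) ℝ)
    (hA : 0 < Matrix.det (A : Matrix (Fin 2) (Fin 2) ℝ)) {f : ℍ → ℂ} {Q : V2}
    (hQ : Q ∈ polyC w) (hf : HasPrim (integrand f Q)) :
    HasPrim (integrand (f ∣[k] A) (act A Q)) ∧
      ∀ a b : ℍ, per (f ∣[k] A) a b (act A Q) =
        ((Matrix.det (A : Matrix (Fin 2) (Fin 2) ℝ) : ℝ) : ℂ) ^ w * per f (A • a) (A • b) Q := by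
  obtain ⟨F, hF⟩ := hf
  set d : ℂ := ((Matrix.det (A : Matrix (Fin 2) (Fin 2) ℝ) : ℝ) : ℂ) with hd
  have hA' : 0 < (A.det : ℝˣ).val := by simpa using hA
  have hG : ∀ t : ℂ, 0 < t.im → HasDerivAt (fun u => d ^ w * F (num A u / denom A u))
      (integrand (f ∣[k] A) (act A Q) t) t := by
    intro t ht
    set τ : ℍ := ⟨t, ht⟩
    have himg : num A t / denom A t = ((A • τ : ℍ) : ℂ) :=
      (coe_smul_of_det_pos hA' τ).symm
    have h1 := ((hF _ (A • τ).im_pos).comp_of_eq t (hasDerivAt_moebius A ht) himg.symm).const_mul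
      (d ^ w)
    refine h1.congr_deriv ?_
    have hne : denom A t ≠ 0 := denom_ne_zero_of_im A ht.ne'
    simp only [integrand, UpperHalfPlane.ofComplex_apply]
    rw [UpperHalfPlane.ofComplex_apply_of_im_pos ht]
    rw [show act A Q (t, 1) = denom A t ^ w * Q (((A • τ : ℍ) : ℂ), 1) by
      rw [← himg, ← polyC_homogeneous hQ, mul_one, mul_div_cancel₀ _ hne, act_apply]
      simp [linPair, num, denom]]
    rw [ModularForm.slash_apply, show σ A = .refl ℝ ℂ by rw [σ, if_pos hA'],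
      ContinuousAlgEquiv.refl_apply]
    have hdet : ((|(A.det : ℝˣ).val| : ℝ) : ℂ) = d := by
      rw [abs_of_pos hA', hd, Matrix.GeneralLinearGroup.val_det_apply]
    rw [hdet, hk, show ((w : ℤ) + 2 - 1) = ((w + 1 : ℕ) : ℤ) by push_cast; ring, zpow_natCast,
      show (-((w : ℤ) + 2)) = -((w + 2 : ℕ) : ℤ) by push_cast; ring, _root_.zpow_neg, zpow_natCast]
    change d ^ w * (f (A • τ) * Q (_, 1) * (d / denom A t ^ 2)) =
      f (A • τ) * d ^ (w + 1) * (denom A t ^ (w + 2))⁻¹ * (denom A t ^ w * Q (_, 1))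
    field_simp
    ring
  refine ⟨⟨_, hG⟩, fun a b => ?_⟩
  rw [per, seg_eq hG, per, seg_eq hF, coe_smul_of_det_pos hA', coe_smul_of_det_pos hA']
  ring

theorem act_scalar {w : ℕ} {Q : V2} (hQ : Q ∈ polyC w) (r : ℝ) :
    act (r • (1 : Matrix (Fin 2) (Fin 2) ℝ)) Q = (r : ℂ) ^ w • Q := by
  funext v
  rw [Pi.smul_apply, smul_eq_mul, ← polyC_homogeneous hQ, act_apply]
  simp [linPair]

theorem integrable_slash {w : ℕ} {k : ℤ} (hk : k = (w : ℤ) + 2) (A : GL (Fin 2) ℝ)
    (hA : 0 < Matrix.det (A : Matrix (Fin 2) (Fin 2) ℝ)) {f : ℍ → ℂ} (hf : Integrable' w f) :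
    Integrable' w (f ∣[k] A) := by
  intro P hP
  set d : ℝ := Matrix.det (A : Matrix (Fin 2) (Fin 2) ℝ)
  set Q : V2 := ((d : ℂ) ^ w)⁻¹ • act (Matrix.adjugate (A : Matrix (Fin 2) (Fin 2) ℝ)) P with hQ
  have hQm : Q ∈ polyC w := Submodule.smul_mem _ _ (act_mem_polyC _ hP)
  have : act A Q = P := by
    rw [hQ, map_smul, ← act_mul, Matrix.adjugate_mul, act_scalar hP, inv_smul_smul₀]
    exact pow_ne_zero _ (by exact_mod_cast hA.ne')
  exact this ▸ (pullback hk A hA hQm (hf Q hQm)).1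

/-- Change of variables in a period. -/
theorem per_slash {w : ℕ} {k : ℤ} (hk : k = (w : ℤ) + 2) (A : GL (Fin 2) ℝ)
    (hA : 0 < Matrix.det (A : Matrix (Fin 2) (Fin 2) ℝ)) {f : ℍ → ℂ} (hf : Integrable' w f)
    (a b : ℍ) {P : V2} (hP : P ∈ polyC w) :
    per (f ∣[k] A) a b P =
      per f (A • a) (A • b) (act (Matrix.adjugate (A : Matrix (Fin 2) (Fin 2) ℝ)) P) := by
  set d : ℝ := Matrix.det (A : Matrix (Fin 2) (Fin 2) ℝ) with hd
  have hQ : act (Matrix.adjugate (A : Matrix (Fin 2) (Fin 2) ℝ)) P ∈ polyC w := act_mem_polyC _ hP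
  have h1 := (pullback hk A hA hQ (hf _ hQ)).2 a b
  rw [← act_mul, Matrix.adjugate_mul, act_scalar hP,
    per_smul_poly (integrable_slash hk A hA hf) a b hP] at h1
  exact mul_left_cancel₀ (pow_ne_zero _ (by exact_mod_cast hA.ne')) h1

/-- the real matrix underlying an element of `SL(2, ℤ)` -/
def sl (g : SL(2, ℤ)) : Matrix (Fin 2) (Fin 2) ℝ := ((mapGL ℝ g : GL (Fin 2) ℝ) : Matrix _ _ ℝ)

theorem sl_apply (g : SL(2, ℤ)) (i j : Fin 2) : sl g i j = ((g i j : ℤ) : ℝ) := by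
  simp [sl]

theorem sl_mul (g h : SL(2, ℤ)) : sl (g * h) = sl g * sl h := by
  simp [sl]

theorem sl_one : sl 1 = 1 := by simp [sl]

theorem det_sl (g : SL(2, ℤ)) : (sl g).det = 1 := by
  have := g.det_coe
  rw [Matrix.det_fin_two] at this
  rw [Matrix.det_fin_two, sl_apply, sl_apply, sl_apply, sl_apply]
  exact_mod_cast this

theorem intMat_sl (g : SL(2, ℤ)) : IntMat (sl g) := fun i j => ⟨g i j, sl_apply g i j⟩

theorem adjugate_sl (g : SL(2, ℤ)) : (sl g).adjugate = sl g⁻¹ := by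
  ext i j
  rw [sl_apply, Matrix.adjugate_fin_two, Matrix.SpecialLinearGroup.SL2_inv_expl]
  fin_cases i <;> fin_cases j <;> simp [sl_apply]

theorem per_slash_SL {w : ℕ} {k : ℤ} (hk : k = (w : ℤ) + 2) (g : SL(2, ℤ)) {f : ℍ → ℂ}
    (hf : Integrable' w f) (a b : ℍ) {P : V2} (hP : P ∈ polyC w) :
    per (f ∣[k] g) a b P = per f (g • a) (g • b) (act (sl g⁻¹) P) := by
  have := per_slash hk (mapGL ℝ g) (by rw [← sl, det_sl]; exact one_pos) hf a b hP
  rw [← sl, adjugate_sl] at this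
  exact this

theorem act_sl_inv_cancel (g : SL(2, ℤ)) (Q : V2) : act (sl g⁻¹) (act (sl g) Q) = Q := by
  rw [← act_mul, ← sl_mul, mul_inv_cancel, sl_one, act_one]

/-! ### Cusp forms -/

section cusp

variable {N : ℕ} [NeZero N] {k : ℤ}

local notation "Γ₀" => CongruenceSubgroup.Gamma0 N

omit [NeZero N] in
theorem T_pow_conj_mem (g : SL(2, ℤ)) :
    g * ModularGroup.T ^ (N : ℤ) * g⁻¹ ∈ Γ₀ := by
  have h : g * ModularGroup.T ^ (N : ℤ) * g⁻¹ ∈ CongruenceSubgroup.Gamma N :=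
    (CongruenceSubgroup.Gamma_normal N).conj_mem _
      (CongruenceSubgroup.ModularGroup_T_pow_mem_Gamma N N dvd_rfl) g
  exact CongruenceSubgroup.Gamma0_mem.mpr (CongruenceSubgroup.Gamma_mem.mp h).2.2.1

theorem slash_SL_periodic {F : ℍ → ℂ} (hF : ∀ γ ∈ Γ₀, F ∣[k] γ = F) (g : SL(2, ℤ)) (τ : ℍ) :
    (F ∣[k] g) (((N : ℝ)) +ᵥ τ) = (F ∣[k] g) τ := by
  have h : (F ∣[k] g) ∣[k] (ModularGroup.T ^ (N : ℤ)) = F ∣[k] g := by
    rw [← SlashAction.slash_mul, show g * ModularGroup.T ^ (N : ℤ) =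
      (g * ModularGroup.T ^ (N : ℤ) * g⁻¹) * g by group, SlashAction.slash_mul,
      hF _ (T_pow_conj_mem g)]
  conv_rhs => rw [← h]
  rw [ModularForm.SL_slash_apply (f := F ∣[k] g), UpperHalfPlane.modular_T_zpow_smul]
  have hd : denom (mapGL ℝ (ModularGroup.T ^ (N : ℤ))) τ = 1 := by
    simp only [denom, mapGL_coe_matrix, map_apply_coe, RingHom.mapMatrix_apply,
      ModularGroup.coe_T_zpow, Matrix.map_apply]
    simp
  erw [hd]
  simp

omit [NeZero N] in
theorem cuspForm_slash_eq (f : CuspForm Γ₀ k) (γ : SL(2, ℤ)) (hγ : γ ∈ Γ₀) :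
    (⇑f : ℍ → ℂ) ∣[k] γ = ⇑f :=
  SlashInvariantFormClass.slash_action_eq f _ (Subgroup.mem_map_of_mem _ hγ)

theorem isDecay_slash (f : CuspForm Γ₀ k) (g : SL(2, ℤ)) :
    IsDecay N (fun t => ((⇑f : ℍ → ℂ) ∣[k] g) (ofComplex t)) := by
  set h : ℍ → ℂ := (⇑f : ℍ → ℂ) ∣[k] g with hh
  have hper : Function.Periodic (h ∘ ofComplex) ((N : ℝ) : ℂ) := by
    intro t
    by_cases ht : 0 < t.im
    · simp only [Function.comp_apply]
      have ht' : 0 < (t + ((N : ℝ) : ℂ)).im := by simpa using ht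
      rw [ofComplex_apply_of_im_pos ht, ofComplex_apply_of_im_pos ht']
      convert slash_SL_periodic (cuspForm_slash_eq f) g ⟨t, ht⟩ using 2
      ext
      simp [add_comm]
    · have ht' : (t + ((N : ℝ) : ℂ)).im ≤ 0 := by simpa using not_lt.mp ht
      simp only [Function.comp_apply]
      rw [ofComplex_apply_of_im_nonpos (not_lt.mp ht), ofComplex_apply_of_im_nonpos ht']
  have hhol : MDiff h := by
    rw [hh, ModularForm.SL_slash]
    exact (CuspFormClass.holo f).slash k _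
  have hzero : IsZeroAtImInfty h := CuspFormClass.zero_at_infty_slash f g
  refine ⟨UpperHalfPlane.cuspFunction N h,
    differentiableOn_cuspFunction_ball natCast_pos' hper hhol hzero.boundedAtFilter, ?_,
    fun t ht => ?_⟩
  · exact UpperHalfPlane.IsZeroAtImInfty.cuspFunction_apply_zero hzero natCast_pos'
  · show h (ofComplex t) = _
    rw [ofComplex_apply_of_im_pos ht]
    exact (UpperHalfPlane.eq_cuspFunction ⟨t, ht⟩ (NeZero.ne (N : ℝ)) hper).symm

theorem cuspForm_integrable (f : CuspForm Γ₀ k) (w : ℕ) : Integrable' w ⇑f :=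
  integrable_of_isDecay (by simpa using isDecay_slash f (1 : SL(2, ℤ))) w

/-- Periods of cusp forms are equivariant for `Γ₀(N)`. -/
theorem per_invariant {w : ℕ} (hk : k = (w : ℤ) + 2) (f : CuspForm Γ₀ k) {γ : SL(2, ℤ)}
    (hγ : γ ∈ Γ₀) (a b : ℍ) {Q : V2} (hQ : Q ∈ polyC w) :
    per f (γ • a) (γ • b) Q = per f a b (act (sl γ) Q) := by
  have := per_slash_SL hk γ (cuspForm_integrable f w) a b (act_mem_polyC (sl γ) hQ)
  rw [cuspForm_slash_eq f γ hγ, act_sl_inv_cancel] at this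
  exact this.symm

end cusp

end FLTAgent.ModSym
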