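import Mathlib
import Fermat.Agent.ModSym.Period

/-!
# The lattice of functionals given by integral one-cycles

`lattice N k w` is the image in the dual of `S_k(Γ₀(N))` of the one-cycles with coefficients in
integral polynomials of degree `w = k - 2`, through `f ↦ ∫ f P` from a base point to its translate.
It is finitely generated since `Γ₀(N)` is (`lattice_fg`), and stable under the transpose of every
operator given by a finite family of integral matrices permuted by `Γ₀(N)` up to `Γ₀(N)`
(`lattice_stable`).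
-/

noncomputable section

open Complex UpperHalfPlane Matrix Matrix.SpecialLinearGroup
open scoped MatrixGroups ModularForm

namespace FLTAgent.ModSym

variable (N : ℕ) [NeZero N] (k : ℤ) (w : ℕ)

local notation "Γ₀" => CongruenceSubgroup.Gamma0 N

/-- base point -/
abbrev base : ℍ := UpperHalfPlane.I

/-- the functional `f ↦ ∫_o^{γ o} f P` as a function of `P` -/
def cycFun (γ : SL(2, ℤ)) : polyZ w →ₗ[ℤ] Module.Dual ℂ (CuspForm Γ₀ k) where
  toFun P :=
    { toFun := fun f => per f base (γ • base) P
      map_add' := fun f g => by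
        rw [FunLike.coe_add]
        exact per_add_form (cuspForm_integrable f w) (cuspForm_integrable g w) _ _
          (mem_polyC_of_mem_polyZ P.2)
      map_smul' := fun c f => by
        rw [FunLike.coe_smul]
        exact per_smul_form (cuspForm_integrable f w) _ _ (mem_polyC_of_mem_polyZ P.2) c }
  map_add' P Q := LinearMap.ext fun f =>
    per_add_poly (cuspForm_integrable f w) _ _ (mem_polyC_of_mem_polyZ P.2)
      (mem_polyC_of_mem_polyZ Q.2)
  map_smul' n P := LinearMap.ext fun f => by
    show per f base (γ • base) ((n • P : polyZ w) : V2) = n • per f base (γ • base) (P : V2)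
    rw [Submodule.coe_smul, per_zsmul_poly (cuspForm_integrable f w) _ _
      (mem_polyC_of_mem_polyZ P.2), zsmul_eq_mul]

theorem cycFun_apply (γ : SL(2, ℤ)) (P : polyZ w) (f : CuspForm Γ₀ k) :
    cycFun N k w γ P f = per f base (γ • base) P := rfl

/-- boundary -/
def bdFun (γ : SL(2, ℤ)) : polyZ w →ₗ[ℤ] V2 :=
  ((act (sl γ)).restrictScalars ℤ - LinearMap.id) ∘ₗ (polyZ w).subtype

theorem bdFun_apply (γ : SL(2, ℤ)) (P : polyZ w) :
    bdFun w γ P = act (sl γ) P - (P : V2) := rfl

/-- chains -/
abbrev Chain : Type := Γ₀ →₀ polyZ w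

/-- evaluation of chains -/
def cyc : Chain N w →ₗ[ℤ] Module.Dual ℂ (CuspForm Γ₀ k) :=
  Finsupp.lsum ℤ fun γ : Γ₀ => cycFun N k w γ

/-- boundary of chains -/
def bd : Chain N w →ₗ[ℤ] V2 :=
  Finsupp.lsum ℤ fun γ : Γ₀ => bdFun w γ

/-- the lattice of functionals given by cycles -/
def lattice : Submodule ℤ (Module.Dual ℂ (CuspForm Γ₀ k)) :=
  (LinearMap.ker (bd N w)).map (cyc N k w)

variable {N k w}

theorem cycFun_one : cycFun N k w 1 = 0 := by
  ext P f
  simp [cycFun_apply, per, seg_self]

theorem cycFun_mul (hk : k = (w : ℤ) + 2) {γ : SL(2, ℤ)} (hγ : γ ∈ Γ₀) (δ : SL(2, ℤ))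
    (P : polyZ w) :
    cycFun N k w (γ * δ) P = cycFun N k w γ P +
      cycFun N k w δ ⟨act (sl γ) P, act_mem_polyZ (intMat_sl γ) P.2⟩ := by
  ext f
  simp only [LinearMap.add_apply, cycFun_apply]
  rw [← per_invariant hk f hγ _ _ (mem_polyC_of_mem_polyZ P.2), mul_smul, per_add_per]

theorem range_cyc_fg (hk : k = (w : ℤ) + 2) : (LinearMap.range (cyc N k w)).FG := by
  classical
  have : Group.FG SL(2, ℤ) :=
    ⟨⟨{ModularGroup.S, ModularGroup.T}, by simpa using SpecialLinearGroup.SL2Z_generators⟩⟩
  obtain ⟨s, hs⟩ := (Group.fg_iff_subgroup_fg Γ₀).mp inferInstance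
  set gens : Set (Module.Dual ℂ (CuspForm Γ₀ k)) :=
    (fun x : SL(2, ℤ) × Fin (w + 1) => cycFun N k w x.1 ⟨mon w x.2, mon_mem_polyZ w x.2⟩) ''
      ((s : Set SL(2, ℤ)) ×ˢ Set.univ) with hgens
  have hfin : gens.Finite := (s.finite_toSet.prod Set.finite_univ).image _
  set M := Submodule.span ℤ gens with hM
  have key : ∀ γ ∈ Γ₀, ∀ P, cycFun N k w γ P ∈ M := by
    intro γ hγ
    rw [← hs] at hγ
    induction hγ using Subgroup.closure_induction with
    | mem x hx =>
      rintro ⟨P, hP⟩
      induction hP using Submodule.span_induction with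
      | mem q hq =>
        obtain ⟨j, rfl⟩ := hq
        exact Submodule.subset_span ⟨(x, j), ⟨hx, trivial⟩, rfl⟩
      | zero => exact (map_zero (cycFun N k w x)).symm ▸ zero_mem M
      | add a b ha hb iha ihb =>
        have := add_mem iha ihb
        rw [← map_add] at this
        exact this
      | smul n a ha iha =>
        have := M.smul_mem n iha
        rw [← map_zsmul] at this
        exact this
    | one => intro P; rw [cycFun_one]; exact zero_mem M
    | mul x y hx' hy' hx hy =>
      intro P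
      rw [hs] at hx'
      rw [cycFun_mul hk hx']
      exact add_mem (hx P) (hy _)
    | inv x hx' hx =>
      intro P
      rw [hs] at hx'
      have h1 := cycFun_mul hk (Subgroup.inv_mem _ hx') x P
      rw [inv_mul_cancel, cycFun_one, LinearMap.zero_apply] at h1
      rw [eq_neg_of_add_eq_zero_left h1.symm]
      exact neg_mem (hx _)
  have hle : LinearMap.range (cyc N k w) ≤ M := by
    rintro _ ⟨x, rfl⟩
    rw [cyc, Finsupp.lsum_apply]
    exact sum_mem fun γ _ => key γ γ.2 _
  have : Module.Finite ℤ M := Module.Finite.span_of_finite ℤ hfin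
  exact Submodule.FG.of_le (Module.Finite.iff_fg.mp inferInstance) hle

/-- The lattice of periods is finitely generated. -/
theorem lattice_fg (hk : k = (w : ℤ) + 2) : (lattice N k w).FG :=
  Submodule.FG.of_le (range_cyc_fg hk) LinearMap.map_le_range

/-- An operator given by integral matrices permuted by `Γ₀(N)` preserves the lattice. -/
theorem lattice_stable (hk : k = (w : ℤ) + 2) {ι : Type} [Fintype ι] (α : ι → GL (Fin 2) ℝ)
    {d : ℝ} (hd : 0 < d) (hdet : ∀ i, Matrix.det (α i : Matrix (Fin 2) (Fin 2) ℝ) = d)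
    (hint : ∀ i, IntMat (α i : Matrix (Fin 2) (Fin 2) ℝ).adjugate)
    (hperm : ∀ γ ∈ Γ₀, ∃ (σ : Equiv.Perm ι) (γ' : ι → SL(2, ℤ)), (∀ i, γ' i ∈ Γ₀) ∧
      ∀ i, α i * mapGL ℝ γ = mapGL ℝ (γ' i) * α (σ i))
    (T : Module.End ℂ (CuspForm Γ₀ k))
    (hT : ∀ f : CuspForm Γ₀ k, ⇑(T f) = ∑ i, (⇑f : ℍ → ℂ) ∣[k] α i)
    {φ : Module.Dual ℂ (CuspForm Γ₀ k)} (hφ : φ ∈ lattice N k w) :
    φ ∘ₗ T ∈ lattice N k w := by
  obtain ⟨x, hx, rfl⟩ := hφ
  choose σ γ' hγ' hrel using fun γ : Γ₀ => hperm γ γ.2
  set A : ι → Matrix (Fin 2) (Fin 2) ℝ :=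
    fun i => (α i : Matrix (Fin 2) (Fin 2) ℝ).adjugate with hA
  have hA' : ∀ i (Q : V2), Q ∈ polyZ w → act (A i) Q ∈ polyZ w :=
    fun i Q hQ => act_mem_polyZ (hint i) hQ
  let actA : ι → polyZ w →ₗ[ℤ] polyZ w := fun i =>
    ((act (A i)).restrictScalars ℤ).restrict (hA' i)
  let T' : Chain N w →ₗ[ℤ] Chain N w := Finsupp.lsum ℤ fun γ : Γ₀ =>
    ∑ i, Finsupp.lsingle (R := ℤ) (⟨γ' γ i, hγ' γ i⟩ : Γ₀) ∘ₗ actA i
  have hcomm : ∀ (γ : Γ₀) i, A i * sl (γ' γ i) = sl γ * A (σ γ i) := by
    intro γ i
    have h := congrArg (fun M : GL (Fin 2) ℝ => (M : Matrix (Fin 2) (Fin 2) ℝ)) (hrel γ i)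
    simp only [Units.val_mul] at h
    change (α i : Matrix (Fin 2) (Fin 2) ℝ) * sl γ = sl (γ' γ i) * (α (σ γ i) : Matrix _ _ ℝ) at h
    refine (smul_right_injective _ hd.ne' ?_).symm
    show d • (sl γ * A (σ γ i)) = d • (A i * sl (γ' γ i))
    calc d • (sl γ * A (σ γ i))
        = A i * (α i : Matrix (Fin 2) (Fin 2) ℝ) * (sl γ * A (σ γ i)) := by
          rw [hA, Matrix.adjugate_mul, hdet, Matrix.smul_mul, one_mul]
      _ = A i * ((α i : Matrix (Fin 2) (Fin 2) ℝ) * sl γ) * A (σ γ i) := by
          simp only [Matrix.mul_assoc]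
      _ = A i * sl (γ' γ i) * ((α (σ γ i) : Matrix (Fin 2) (Fin 2) ℝ) * A (σ γ i)) := by
          rw [h]; simp only [Matrix.mul_assoc]
      _ = d • (A i * sl (γ' γ i)) := by
          rw [hA, Matrix.mul_adjugate, hdet, Matrix.mul_smul, mul_one]
  -- the boundary of the new chain
  have hbd : ∀ y : Chain N w, bd N w (T' y) = ∑ i, act (A i) (bd N w y) := by
    intro y
    induction y using Finsupp.induction_linear with
    | zero => simp
    | add a b ha hb => simp only [map_add, ha, hb, Finset.sum_add_distrib]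
    | single γ P =>
      simp only [T', bd, Finsupp.lsum_single, LinearMap.sum_apply, map_sum, LinearMap.comp_apply,
        Finsupp.lsingle_apply, bdFun_apply, map_sub, Finset.sum_sub_distrib]
      congr 1
      conv_rhs => rw [← Equiv.sum_comp (σ γ) (fun i => act (A i) (act (sl γ) P))]
      refine Finset.sum_congr rfl fun i _ => ?_
      show act (sl (γ' γ i)) (act (A i) P) = _
      rw [← act_mul, ← act_mul, hcomm]
  -- the correction functional
  have hcyc : ∀ (y : Chain N w) (f : CuspForm Γ₀ k),
      cyc N k w y (T f) = cyc N k w (T' y) f +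
        ∑ i, per f base (α i • base) (act (A i) (bd N w y)) := by
    intro y f
    have hf : Integrable' w (⇑f : ℍ → ℂ) := cuspForm_integrable f w
    induction y using Finsupp.induction_linear with
    | zero => simp [per_zero_poly]
    | add a b ha hb =>
      have hmem : ∀ z : Chain N w, bd N w z ∈ polyC w := fun z => by
        rw [bd, Finsupp.lsum_apply]
        exact sum_mem fun δ _ => sub_mem
          (act_mem_polyC _ (mem_polyC_of_mem_polyZ (z δ).2)) (mem_polyC_of_mem_polyZ (z δ).2)
      simp only [map_add, LinearMap.add_apply, ha, hb,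
        per_add_poly hf _ _ (act_mem_polyC _ (hmem a)) (act_mem_polyC _ (hmem b)),
        Finset.sum_add_distrib]
      ring
    | single γ P =>
      simp only [T', cyc, bd, Finsupp.lsum_single, LinearMap.sum_apply, map_sum,
        LinearMap.comp_apply, Finsupp.lsingle_apply, cycFun_apply, bdFun_apply, map_sub]
      have hP := mem_polyC_of_mem_polyZ P.2
      have hdpos : ∀ i, 0 < Matrix.det (α i : Matrix (Fin 2) (Fin 2) ℝ) := fun i => by
        rw [hdet]; exact hd
      rw [hT, per_sum_form _ (fun i _ => integrable_slash hk (α i) (hdpos i) hf) _ _ hP]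
      have hsub : ∀ i, per f base (α i • base) (act (A i) (act (sl γ) P) - act (A i) P) =
          per f base (α i • base) (act (A i) (act (sl γ) P)) -
            per f base (α i • base) (act (A i) P) := by
        intro i
        have := per_add_poly hf base (α i • base)
          (sub_mem (act_mem_polyC (A i) (act_mem_polyC (sl γ) hP)) (act_mem_polyC (A i) hP))
          (act_mem_polyC (A i) hP)
        rw [sub_add_cancel] at this
        linear_combination -this
      simp only [hsub, Finset.sum_sub_distrib]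
      rw [← Equiv.sum_comp (σ γ) (fun i => per f base (α i • base) (act (A i) (act (sl γ) P))),
        ← Finset.sum_sub_distrib, ← Finset.sum_add_distrib]
      refine Finset.sum_congr rfl fun i _ => ?_
      have hQ : act (A i) P ∈ polyC w := act_mem_polyC _ hP
      rw [per_slash hk (α i) (hdpos i) hf _ _ hP]
      change per f (α i • base) (α i • (γ : SL(2, ℤ)) • base) (act (A i) P) =
        per f base (γ' γ i • base) (act (A i) P) + _
      rw [show act (A (σ γ i)) (act (sl γ) P) = act (sl (γ' γ i)) (act (A i) P) by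
        rw [← act_mul, ← act_mul, hcomm], ← per_invariant hk f (hγ' γ i) _ _ hQ]
      have hmove : α i • (γ : SL(2, ℤ)) • base = γ' γ i • α (σ γ i) • base := by
        show α i • mapGL ℝ (γ : SL(2, ℤ)) • base = mapGL ℝ (γ' γ i) • α (σ γ i) • base
        rw [← mul_smul, ← mul_smul, hrel]
      rw [hmove]
      have h1 := per_add_per (⇑f : ℍ → ℂ) base (α i • base) (γ' γ i • α (σ γ i) • base)
        (act (A i) P)
      have h2 := per_add_per (⇑f : ℍ → ℂ) base (γ' γ i • base) (γ' γ i • α (σ γ i) • base)
        (act (A i) P)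
      linear_combination h1 - h2
  have hx0 : bd N w x = 0 := hx
  refine ⟨T' x, ?_, ?_⟩
  · show bd N w (T' x) = 0
    simp [hbd, hx0]
  · ext f
    rw [LinearMap.comp_apply, hcyc, hx0]
    simp [per_zero_poly]

end FLTAgent.ModSym
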