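import Mathlib
import Fermat.Agent.ModSym.Cycles

/-!
# The lattice of periods separates cusp forms

`lattice_separating`: a cusp form of weight `k = w + 2` killed by all of `lattice N k w` is zero.
Its periods are then a coboundary (`exists_potential`), so the corrected Eichler integral is
invariant of weight `-w` (`eichler_invariant`) with constant growth at every cusp
(`eichler_shape`), hence constant; its decaying part and therefore the form vanish.
-/

noncomputable section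

open Complex UpperHalfPlane Matrix Matrix.SpecialLinearGroup Filter
open scoped MatrixGroups ModularForm Manifold Topology

namespace FLTAgent.ModSym

variable {N : ℕ} [NeZero N] {k : ℤ} {w : ℕ}

local notation "Γ₀" => CongruenceSubgroup.Gamma0 N

/-- the Eichler integral with constant `v` -/
def eichler (w : ℕ) (f : ℍ → ℂ) (v : V2 →ₗ[ℂ] ℂ) : ℍ → ℂ :=
  fun z => per f base z (kerPoly w z) + v (kerPoly w z)

theorem eichler_slash (hk : k = (w : ℤ) + 2) (f : CuspForm Γ₀ k) (v : V2 →ₗ[ℂ] ℂ)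
    (g : SL(2, ℤ)) (z : ℍ) :
    (eichler w f v ∣[-(w : ℤ)] g) z =
      per ((⇑f : ℍ → ℂ) ∣[k] g) (g⁻¹ • base) z (kerPoly w z)
        + v (act (sl g⁻¹) (kerPoly w z)) := by
  have hf : Integrable' w (⇑f : ℍ → ℂ) := cuspForm_integrable f w
  have hden : denom (mapGL ℝ g) z = (sl g 1 0 : ℂ) * z + (sl g 1 1 : ℂ) := rfl
  have hd : (sl g 1 0 : ℂ) * z + (sl g 1 1 : ℂ) ≠ 0 := hden ▸ denom_ne_zero _ z
  have hco : ((g • z : ℍ) : ℂ) =
      ((sl g 0 0 : ℂ) * z + (sl g 0 1 : ℂ)) / ((sl g 1 0 : ℂ) * z + (sl g 1 1 : ℂ)) := by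
    rw [UpperHalfPlane.coe_specialLinearGroup_apply]
    simp [sl_apply]
  have key := act_kerPoly w (sl g) (det_sl g) z hd
  rw [← hco] at key
  have key2 : ((sl g 1 0 : ℂ) * z + (sl g 1 1 : ℂ)) ^ w • kerPoly w (g • z : ℍ) =
      act (sl g⁻¹) (kerPoly w z) := by
    rw [← key, map_smul, act_sl_inv_cancel]
  rw [per_slash_SL hk g hf _ _ (kerPoly_mem w z), smul_inv_smul, ← key2,
    per_smul_poly hf _ _ (kerPoly_mem w _), map_smul, smul_eq_mul, ModularForm.SL_slash_apply]
  erw [hden]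
  rw [neg_neg, zpow_natCast, eichler]
  ring

theorem eichler_invariant (hk : k = (w : ℤ) + 2) (f : CuspForm Γ₀ k) (v : V2 →ₗ[ℂ] ℂ)
    (hv : ∀ γ ∈ Γ₀, ∀ Q ∈ polyC w, per f base (γ • base) Q = v (act (sl γ) Q) - v Q)
    {γ : SL(2, ℤ)} (hγ : γ ∈ Γ₀) : eichler w f v ∣[-(w : ℤ)] γ = eichler w f v := by
  funext z
  rw [eichler_slash hk f v γ z, cuspForm_slash_eq f γ hγ, eichler]
  have h1 := per_add_per (⇑f : ℍ → ℂ) base (γ⁻¹ • base) z (kerPoly w z)
  have h2 := hv γ⁻¹ (Subgroup.inv_mem _ hγ) _ (kerPoly_mem w z)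
  linear_combination h1 - h2

theorem eichler_shape (hk : k = (w : ℤ) + 2) (f : CuspForm Γ₀ k) (v : V2 →ₗ[ℂ] ℂ)
    (hv : ∀ γ ∈ Γ₀, ∀ Q ∈ polyC w, per f base (γ • base) Q = v (act (sl γ) Q) - v Q)
    (g : SL(2, ℤ)) : ∃ (K : ℂ → ℂ) (c : ℂ), IsDecay N K ∧
      (∀ z : ℍ, (eichler w f v ∣[-(w : ℤ)] g) z = K z + c) ∧
      ((∀ z : ℂ, 0 < z.im → K z = 0) → (⇑f : ℍ → ℂ) ∣[k] g = 0) := by
  obtain ⟨K, p, hKd, hK, hK0⟩ := exists_eichler w (isDecay_slash f g) (g⁻¹ • base)
  obtain ⟨q, hq⟩ := exists_polynomial_kerPoly w (v ∘ₗ act (sl g⁻¹))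
  have hform : ∀ z : ℍ, (eichler w f v ∣[-(w : ℤ)] g) z = K z + (p + q).eval (z : ℂ) := by
    intro z
    rw [eichler_slash hk f v g z, Polynomial.eval_add, ← hq, ← add_assoc, ← hK, per]
    have hint : integrand ((⇑f : ℍ → ℂ) ∣[k] g) (kerPoly w z) =
        fun t => ((⇑f : ℍ → ℂ) ∣[k] g) (ofComplex t) * (t - z) ^ w := by
      funext t; simp [integrand, kerPoly]
    rw [hint, LinearMap.comp_apply]
  have hconst : p + q = Polynomial.C ((p + q).eval Complex.I) := by
    refine polynomial_eq_const_of_periodic (N := N) fun z hz => ?_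
    have h1 := hform ⟨z, hz⟩
    have h2 := hform ((N : ℝ) +ᵥ ⟨z, hz⟩)
    rw [slash_SL_periodic (fun γ hγ => eichler_invariant hk f v hv hγ) g, h1] at h2
    have hz' : (((N : ℝ) +ᵥ (⟨z, hz⟩ : ℍ) : ℍ) : ℂ) = z + N := by simp [add_comm]
    rw [hz', hKd.periodic hz] at h2
    exact (add_left_cancel h2).symm
  refine ⟨K, (p + q).eval Complex.I, hKd, fun z => ?_, fun h0 => ?_⟩
  · rw [hform z]
    congr 1
    conv_lhs => rw [hconst]
    exact Polynomial.eval_C
  · funext τ
    simpa using hK0 h0 τ τ.im_pos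

/-- A form killed by the lattice has periods which are a coboundary. -/
theorem exists_potential {f : CuspForm Γ₀ k} (hf : ∀ φ ∈ lattice N k w, φ f = 0) :
    ∃ v : V2 →ₗ[ℂ] ℂ,
      ∀ γ ∈ Γ₀, ∀ Q ∈ polyC w, per f base (γ • base) Q = v (act (sl γ) Q) - v Q := by
  let ψ : Chain N w →ₗ[ℤ] ℂ :=
    ((LinearMap.applyₗ f).restrictScalars ℤ) ∘ₗ cyc N k w
  have hker : LinearMap.ker (bd N w) ≤ LinearMap.ker ψ := fun x hx =>
    hf _ ⟨x, hx, rfl⟩
  have hrange : LinearMap.range (bd N w) ≤ polyZ w := by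
    rintro _ ⟨x, rfl⟩
    rw [bd, Finsupp.lsum_apply]
    exact sum_mem fun γ _ => sub_mem (act_mem_polyZ (intMat_sl _) (x γ).2) (x γ).2
  let ψ' : LinearMap.range (bd N w) →ₗ[ℤ] ℂ :=
    (Submodule.liftQ _ ψ hker) ∘ₗ (bd N w).quotKerEquivRange.symm.toLinearMap
  obtain ⟨u, hu⟩ := (Module.Baer.of_divisible ℂ).extension_property
    (Submodule.inclusion hrange) (Submodule.inclusion_injective hrange) ψ'
  obtain ⟨v, hv⟩ := exists_extend_complex u
  refine ⟨v, fun γ hγ Q hQ => ?_⟩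
  have hf' : Integrable' w (⇑f : ℍ → ℂ) := cuspForm_integrable f w
  induction hQ using Submodule.span_induction with
  | mem q hq =>
    obtain ⟨j, rfl⟩ := hq
    set P : polyZ w := ⟨mon w j, mon_mem_polyZ w j⟩
    set x : Chain N w := Finsupp.single (⟨γ, hγ⟩ : Γ₀) P with hx
    have hbx : bd N w x = act (sl γ) (mon w j) - mon w j := by
      simp [hx, bd, bdFun_apply, P]
    have h1 : ψ' ⟨bd N w x, ⟨x, rfl⟩⟩ = ψ x := by
      simp only [ψ', LinearMap.comp_apply, LinearEquiv.coe_coe]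
      erw [LinearMap.quotKerEquivRange_symm_apply_image]
      rfl
    have h2 : u ⟨bd N w x, hrange ⟨x, rfl⟩⟩ = ψ x := by
      rw [← h1, ← hu]; rfl
    rw [← hv _ (hrange ⟨x, rfl⟩), hbx, map_sub] at h2
    rw [h2]
    simp [ψ, hx, cyc, cycFun_apply, P]
  | zero => simp [per_zero_poly]
  | add x y hx' hy' hx hy =>
    rw [per_add_poly hf' _ _ hx' hy', hx, hy]; simp only [map_add]; ring
  | smul c x hx' hx =>
    rw [per_smul_poly hf' _ _ hx', hx]; simp only [map_smul, smul_eq_mul]; ring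

/-- The lattice of periods separates cusp forms. -/
theorem lattice_separating (hk : k = (w : ℤ) + 2) {f : CuspForm Γ₀ k}
    (hf : ∀ φ ∈ lattice N k w, φ f = 0) : f = 0 := by
  obtain ⟨v, hv⟩ := exists_potential hf
  set G := eichler w f v with hG
  choose K c hKd hform hK0 using eichler_shape hk f v hv
  have hG1 : ∀ z : ℍ, G z = K 1 z + c 1 := fun z => by
    have := hform 1 z
    rwa [SlashAction.slash_one] at this
  have hhol : MDiff G := by
    rw [UpperHalfPlane.mdifferentiable_iff]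
    intro z hz
    have hd : DifferentiableAt ℂ (fun u => K 1 u + c 1) z :=
      ((hKd 1).differentiableAt hz).add (differentiableAt_const _)
    refine (hd.congr_of_eventuallyEq ?_).differentiableWithinAt
    filter_upwards [(isOpen_lt continuous_const Complex.continuous_im).mem_nhds hz] with u hu
    show G (ofComplex u) = _
    rw [hG1, ofComplex_apply_of_im_pos hu]
  have hbdd : ∀ g : SL(2, ℤ), IsBoundedAtImInfty (G ∣[-(w : ℤ)] g) := by
    intro g
    have h1 : Tendsto (G ∣[-(w : ℤ)] g) atImInfty (𝓝 (c g)) := by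
      have := ((hKd g).zeroAtImInfty).add_const (c g)
      rw [zero_add] at this
      exact this.congr fun τ => (hform g τ).symm
    exact h1.isBigO_one ℝ
  let GM : ModularForm Γ₀ (-(w : ℤ)) :=
    { toFun := G
      slash_action_eq' := by
        rintro γ ⟨g, hg, rfl⟩
        exact eichler_invariant hk f v hv hg
      holo' := hhol
      bdd_at_cusps' := fun {cu} hcu => by
        rw [Subgroup.IsArithmetic.isCusp_iff_isCusp_SL2Z] at hcu
        rw [OnePoint.isBoundedAt_iff_forall_SL2Z hcu]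
        exact fun g _ => hbdd g }
  obtain ⟨C, hC⟩ : ∃ C : ℂ, ∀ z : ℍ, G z = C := by
    rcases Nat.eq_zero_or_pos w with hw | hw
    · subst hw
      obtain ⟨C, hC⟩ := ModularForm.eq_const_of_weight_zero
        (𝒢 := (Γ₀ : Subgroup (GL (Fin 2) ℝ)))
        { toFun := G
          slash_action_eq' := fun γ hγ => by
            have : G ∣[(-((0 : ℕ) : ℤ))] γ = G := GM.slash_action_eq' γ hγ
            rw [show (-((0 : ℕ) : ℤ)) = 0 by simp] at this
            exact this
          holo' := hhol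
          bdd_at_cusps' := fun {cu} hcu => by
            have : cu.IsBoundedAt G (-((0 : ℕ) : ℤ)) := GM.bdd_at_cusps' hcu
            rw [show (-((0 : ℕ) : ℤ)) = 0 by simp] at this
            exact this }
      exact ⟨C, fun z => congrFun hC z⟩
    · have := ModularForm.isZero_of_neg_weight (by omega : (-(w : ℤ)) < 0) GM
      exact ⟨0, fun z => congrArg (fun F : ModularForm Γ₀ (-(w : ℤ)) => F z) this⟩
  have hKc : ∀ z : ℍ, K 1 z = C - c 1 := fun z => by
    rw [← hC z, hG1 z]; ring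
  have hlim : C - c 1 = 0 := by
    have h1 : Tendsto (fun τ : ℍ => K 1 τ) atImInfty (𝓝 (C - c 1)) :=
      tendsto_const_nhds.congr fun τ => (hKc τ).symm
    exact tendsto_nhds_unique h1 (hKd 1).zeroAtImInfty
  have := hK0 1 fun z hz => by rw [← hlim]; exact hKc ⟨z, hz⟩
  rw [SlashAction.slash_one] at this
  exact DFunLike.coe_injective (by simpa using this)

end FLTAgent.ModSym
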