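import Mathlib
import Fermat.Prelude.Def_CuspForm_HeckeAlgebra
import Fermat.Prelude.Thm_ModularForm_heckeT_slash_eq_self_of_mem_Gamma0
import Fermat.Agent.ModSym.Separating

/-!
# Finiteness of the Hecke algebra over `ℤ`

`moduleFinite_heckeAlgebra_all`: the algebra generated over `ℤ` by Hecke operators on
`S_k(Γ₀(N))` is a finite `ℤ`-module, for every integer `k`. For `k ≥ 2` transposed operators
preserve the finitely generated lattice of periods, which separates forms; for `k ≤ 1` the space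
is zero.
-/

noncomputable section

open Matrix Matrix.SpecialLinearGroup
open scoped MatrixGroups ModularForm OnePoint

namespace FLTAgent.ModSym

open P2MW.S_ModularForm_heckeT_slash_eq_self_of_mem_Gamma0.ModularForm.HeckeSlashInvariance

variable {N : ℕ} [NeZero N] {k : ℤ} {w : ℕ}

local notation "Γ₀" => CongruenceSubgroup.Gamma0 N

theorem intMat_adjugate_heckeMatrix {p : ℕ} (hp : p ≠ 0) (j : ℕ) :
    IntMat (ModularForm.heckeMatrix p j : Matrix (Fin 2) (Fin 2) ℝ).adjugate := by
  intro i l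
  rw [ModularForm.val_heckeMatrix hp, Matrix.adjugate_fin_two_of]
  fin_cases i <;> fin_cases l
  · exact ⟨p, by simp⟩
  · exact ⟨-j, by simp⟩
  · exact ⟨0, by simp⟩
  · exact ⟨1, by simp⟩

theorem intMat_adjugate_heckeDiagMatrix {p : ℕ} (hp : p ≠ 0) :
    IntMat (ModularForm.heckeDiagMatrix p : Matrix (Fin 2) (Fin 2) ℝ).adjugate := by
  intro i l
  rw [ModularForm.val_heckeDiagMatrix hp, Matrix.adjugate_fin_two_of]
  fin_cases i <;> fin_cases l
  · exact ⟨1, by simp⟩
  · exact ⟨0, by simp⟩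
  · exact ⟨0, by simp⟩
  · exact ⟨p, by simp⟩

theorem lattice_stable_heckeT (hk : k = (w : ℤ) + 2) {p : ℕ} (hp : p.Prime) (hpN : ¬ p ∣ N)
    {φ : Module.Dual ℂ (CuspForm Γ₀ k)} (hφ : φ ∈ lattice N k w) :
    φ ∘ₗ CuspForm.heckeTLin k hp hpN ∈ lattice N k w := by
  have : Fact p.Prime := ⟨hp⟩
  have : NeZero p := ⟨hp.ne_zero⟩
  refine lattice_stable hk (ι := OnePoint (ZMod p)) (heckeRep p) (d := (p : ℝ))
    (by exact_mod_cast hp.pos) (fun x => ?_) (fun x => ?_) (fun γ hγ => ?_) _ (fun f => ?_) hφ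
  · induction x using OnePoint.rec with
    | infty =>
      rw [heckeRep_infty, ModularForm.val_heckeDiagMatrix hp.ne_zero, Matrix.det_fin_two_of]
      ring
    | coe j =>
      rw [heckeRep_coe, ModularForm.val_heckeMatrix hp.ne_zero, Matrix.det_fin_two_of]
      ring
  · induction x using OnePoint.rec with
    | infty => rw [heckeRep_infty]; exact intMat_adjugate_heckeDiagMatrix hp.ne_zero
    | coe j => rw [heckeRep_coe]; exact intMat_adjugate_heckeMatrix hp.ne_zero _
  · have hcN : (N : ℤ) ∣ γ 1 0 :=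
      (ZMod.intCast_zmod_eq_zero_iff_dvd _ _).mp (CongruenceSubgroup.Gamma0_mem.mp hγ)
    choose γ' h1 h2 using fun x => heckeRep_mul hpN γ hcN x
    exact ⟨MulAction.toPerm (redMatrix p γ), γ',
      fun x => CongruenceSubgroup.Gamma0_mem.mpr
        ((ZMod.intCast_zmod_eq_zero_iff_dvd _ _).mpr (h1 x)), h2⟩
  · rw [CuspForm.coe_heckeTLin_apply]
    exact heckeT_eq_sum_onePoint k _

theorem lattice_stable_heckeU (hk : k = (w : ℤ) + 2) {q : ℕ} (hq : q.Prime) (hqN : q ∣ N)
    {φ : Module.Dual ℂ (CuspForm Γ₀ k)} (hφ : φ ∈ lattice N k w) :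
    φ ∘ₗ CuspForm.heckeULin k hqN ∈ lattice N k w := by
  have : NeZero q := ⟨hq.ne_zero⟩
  refine lattice_stable hk (ι := ZMod q) (fun x => ModularForm.heckeMatrix q x.val) (d := (q : ℝ))
    (by exact_mod_cast hq.pos) (fun x => ?_) (fun x => ?_) (fun γ hγ => ?_) _ (fun f => ?_) hφ
  · rw [ModularForm.val_heckeMatrix hq.ne_zero, Matrix.det_fin_two_of]
    ring
  · exact intMat_adjugate_heckeMatrix hq.ne_zero _
  · have hcN : (N : ℤ) ∣ γ 1 0 :=
      (ZMod.intCast_zmod_eq_zero_iff_dvd _ _).mp (CongruenceSubgroup.Gamma0_mem.mp hγ)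
    have hc : (q : ℤ) ∣ γ 1 0 := (Int.natCast_dvd_natCast.mpr hqN).trans hcN
    choose γ' h1 h2 using fun x => heckeMatrix_mul_of_dvd γ hc x
    refine ⟨affinePerm γ ((ZMod.intCast_zmod_eq_zero_iff_dvd _ _).mpr hc), γ', fun x => ?_, h2⟩
    exact CongruenceSubgroup.Gamma0_mem.mpr
      ((ZMod.intCast_zmod_eq_zero_iff_dvd _ _).mpr (h1 x ▸ dvd_mul_of_dvd_right hcN _))
  · rw [CuspForm.coe_heckeULin_apply]
    exact heckeU_eq_sum_zmod k _

/-- operators whose transpose preserves the lattice -/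
theorem lattice_stable_heckeAlgebra (hk : k = (w : ℤ) + 2) {S : Set ℕ}
    {t : Module.End ℂ (CuspForm Γ₀ k)} (ht : t ∈ CuspForm.heckeAlgebra N k S) :
    ∀ φ ∈ lattice N k w, φ ∘ₗ t ∈ lattice N k w := by
  induction ht using Algebra.adjoin_induction with
  | mem x hx =>
    rcases hx with ⟨ℓ, hℓ, hℓN, -, rfl⟩ | ⟨q, hqN, hq, -, rfl⟩
    · exact fun φ hφ => lattice_stable_heckeT hk hℓ hℓN hφ
    · exact fun φ hφ => lattice_stable_heckeU hk hq hqN hφ
  | algebraMap r =>
    intro φ hφ
    have : φ ∘ₗ algebraMap ℤ (Module.End ℂ (CuspForm Γ₀ k)) r = r • φ := by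
      ext f
      simp
    rw [this]
    exact Submodule.smul_mem _ r hφ
  | add x y _ _ hx hy =>
    intro φ hφ
    rw [LinearMap.comp_add]
    exact add_mem (hx φ hφ) (hy φ hφ)
  | mul x y _ _ hx hy =>
    intro φ hφ
    rw [Module.End.mul_eq_comp, ← LinearMap.comp_assoc]
    exact hy _ (hx φ hφ)

theorem moduleFinite_of_weight (hk : k = (w : ℤ) + 2) (S : Set ℕ) :
    Module.Finite ℤ (CuspForm.heckeAlgebra N k S) := by
  obtain ⟨s, hs⟩ := lattice_fg (N := N) hk
  have hmem : ∀ φ : s, (φ : Module.Dual ℂ (CuspForm Γ₀ k)) ∈ lattice N k w := fun φ =>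
    hs ▸ Submodule.subset_span φ.2
  have : Module.Finite ℤ (lattice N k w) := Module.Finite.iff_fg.mpr (lattice_fg hk)
  let ev : CuspForm.heckeAlgebra N k S →ₗ[ℤ] (s → lattice N k w) :=
    { toFun := fun t φ => ⟨(φ : Module.Dual ℂ (CuspForm Γ₀ k)) ∘ₗ (t : Module.End ℂ _),
        lattice_stable_heckeAlgebra hk t.2 _ (hmem φ)⟩
      map_add' := fun t u => funext fun φ => Subtype.ext (LinearMap.comp_add _ _ _)
      map_smul' := fun n t => funext fun φ => Subtype.ext <| LinearMap.ext fun f => by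
        simp }
  refine Module.Finite.of_injective ev ((injective_iff_map_eq_zero ev).mpr fun t ht => ?_)
  apply Subtype.ext
  refine LinearMap.ext fun f => ?_
  refine lattice_separating hk fun φ hφ => ?_
  rw [← hs] at hφ
  induction hφ using Submodule.span_induction with
  | mem x hx =>
    have := congrFun ht ⟨x, hx⟩
    exact LinearMap.congr_fun (congrArg Subtype.val this) f
  | zero => simp
  | add x y _ _ hx hy => rw [LinearMap.add_apply, hx, hy, add_zero]
  | smul n x _ hx => rw [LinearMap.smul_apply, hx, smul_zero]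

theorem subsingleton_of_le_one (hk : k ≤ 1) : Subsingleton (CuspForm Γ₀ k) := by
  refine subsingleton_of_forall_eq 0 fun f => DFunLike.coe_injective ?_
  let F : ModularForm Γ₀ k := ⟨f.toSlashInvariantForm, f.holo', fun hc g hg =>
    (f.zero_at_cusps' hc g hg).boundedAtFilter⟩
  rcases lt_trichotomy k 0 with h | h | h
  · funext z
    exact congrArg (fun G : ModularForm Γ₀ k => G z) (ModularForm.isZero_of_neg_weight h F)
  · subst h
    obtain ⟨c, hc⟩ := ModularForm.eq_const_of_weight_zero F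
    have hz : UpperHalfPlane.IsZeroAtImInfty (⇑f : UpperHalfPlane → ℂ) := by
      simpa using CuspFormClass.zero_at_infty_slash f (1 : SL(2, ℤ))
    have hc' : (⇑f : UpperHalfPlane → ℂ) = Function.const _ c := hc
    rw [hc'] at hz
    have : c = 0 := tendsto_nhds_unique tendsto_const_nhds hz
    rw [hc', this]
    rfl
  · obtain rfl : k = 1 := by omega
    have hneg : (-1 : GL (Fin 2) ℝ) ∈ (Γ₀ : Subgroup (GL (Fin 2) ℝ)) := by
      refine ⟨-1, ?_, ?_⟩
      · simp [CongruenceSubgroup.Gamma0_mem]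
      · ext i j; fin_cases i <;> fin_cases j <;> simp
    funext z
    exact congrArg (fun G : ModularForm Γ₀ 1 => G z)
      (ModularForm.eq_zero_of_neg_one_mem hneg odd_one F)

/-- The Hecke algebra of weight `k` and level `N` is a finite `ℤ`-module. -/
theorem moduleFinite_heckeAlgebra_all (N : ℕ) [NeZero N] (k : ℤ) (S : Set ℕ) :
    Module.Finite ℤ (CuspForm.heckeAlgebra N k S) := by
  rcases le_or_gt k 1 with h | h
  · have := subsingleton_of_le_one (N := N) h
    infer_instance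
  · obtain ⟨w, hw⟩ : ∃ w : ℕ, k = (w : ℤ) + 2 := ⟨(k - 2).toNat, by omega⟩
    exact moduleFinite_of_weight hw S

end FLTAgent.ModSym
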